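import Mathlib

/-!
# S26 / BETA : B3 — the DVR rank lemma (subtask 508), Mathlib only

`P` a domain, `p` a prime of `P` such that `P_p` is a principal ideal ring (e.g. a DVR: `p = (π)`
principal, `P` noetherian), `M` a finite torsion-free `P`-module.  Then `M_p` is free over `P_p`
and the dimension of the fibre `κ(p) ⊗_P M` equals the generic rank of `M`.

For `M = R` a domain finite over `P` with `P → R` injective this reads

    dim_{κ(p)} (κ(p) ⊗_P R) = [Frac R : Frac P].

* `free_localizedModule`        : `M_p` is free over `P_p`;
* `finrank_fiber_eq_finrank`    : `finrank κ(p) (κ(p) ⊗[P] M) = finrank P M`;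
* `finrank_fiber_eq_finrank_fractionRing` :
    `finrank κ(p) (κ(p) ⊗[P] R) = finrank (FractionRing P) (FractionRing R)`;
* `finrank_fiber_eq_finrank_isFractionRing` : the same for arbitrary fraction fields `K`, `L`;
* `finrank_fiber_eq_fiber` : the fibre dimension is the same at any two such primes;
* `finrank_tensor_eq_finrank` : `finrank κ (κ ⊗[P] M) = finrank P M` for ANY field `κ` over `P`
    in which the elements outside `p` stay nonzero (e.g. any fraction field of `P ⧸ p`);
* `finrank_tensor_quotient_eq` : quotient form,
    `finrank κ (κ ⊗[P ⧸ p] (R ⧸ pR)) = finrank (FractionRing P) (FractionRing R)`;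
* `isPrincipalIdealRing_localization_of_isPrincipal` : `P` noetherian domain, `p` a principal
    prime ⇒ `P_p` is a principal ideal ring (a DVR or a field).
-/

set_option autoImplicit false

open TensorProduct

namespace Fermat.Agent.S26.H793

section Module

variable {P : Type*} [CommRing P] [IsDomain P]
variable (M : Type*) [AddCommGroup M] [Module P M] [Module.Finite P M] [Module.IsTorsionFree P M]
variable (p : Ideal P) [p.IsPrime] [IsPrincipalIdealRing (Localization.AtPrime p)]

/-- A finite torsion-free module over a domain is free after localisation at a prime `p` for which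
`P_p` is a principal ideal ring (for instance a discrete valuation ring). -/
theorem free_localizedModule :
    Module.Free (Localization.AtPrime p) (LocalizedModule p.primeCompl M) :=
  Module.free_of_finite_type_torsion_free'

/-- **B3, module form.** The fibre dimension at `p` of a finite torsion-free module equals its
generic rank, when `P_p` is a principal ideal ring. -/
theorem finrank_fiber_eq_finrank :
    Module.finrank p.ResidueField (p.Fiber M) = Module.finrank P M := by
  have hfree : Module.Free (Localization.AtPrime p) (LocalizedModule p.primeCompl M) :=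
    free_localizedModule M p
  let e1 : p.ResidueField ⊗[Localization.AtPrime p] (Localization.AtPrime p ⊗[P] M)
      ≃ₗ[p.ResidueField] p.ResidueField ⊗[P] M :=
    AlgebraTensorModule.cancelBaseChange _ _ _ _ _
  let e2 : p.ResidueField ⊗[Localization.AtPrime p] (LocalizedModule p.primeCompl M)
      ≃ₗ[p.ResidueField]
      p.ResidueField ⊗[Localization.AtPrime p] (Localization.AtPrime p ⊗[P] M) :=
    AlgebraTensorModule.congr (LinearEquiv.refl _ _)
      (LocalizedModule.equivTensorProduct p.primeCompl M)
  have h1 : Module.finrank p.ResidueField (p.Fiber M) =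
      Module.finrank p.ResidueField
        (p.ResidueField ⊗[Localization.AtPrime p] (LocalizedModule p.primeCompl M)) :=
    ((e2.trans e1).finrank_eq).symm
  rw [h1, Module.finrank_baseChange]
  have hle : p.primeCompl ≤ nonZeroDivisors P := p.primeCompl_le_nonZeroDivisors
  rw [IsLocalization.finrank_eq (Localization.AtPrime p) p.primeCompl hle,
    IsLocalizedModule.finrank_eq p.primeCompl (LocalizedModule.mkLinearMap p.primeCompl M) hle]

/-- **B3, module form, arbitrary residue field.** `κ` any field over `P` such that the elements
outside `p` remain nonzero in `κ` (i.e. the kernel of `P → κ` is contained in `p`). -/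
theorem finrank_tensor_eq_finrank (κ : Type*) [Field κ] [Algebra P κ]
    (h : ∀ x : P, x ∉ p → algebraMap P κ x ≠ 0) :
    Module.finrank κ (κ ⊗[P] M) = Module.finrank P M := by
  have hfree : Module.Free (Localization.AtPrime p) (LocalizedModule p.primeCompl M) :=
    free_localizedModule M p
  let _ : Algebra (Localization.AtPrime p) κ :=
    (IsLocalization.lift (M := p.primeCompl) (g := algebraMap P κ)
      (fun y => IsUnit.mk0 _ (h y y.2))).toAlgebra
  have : IsScalarTower P (Localization.AtPrime p) κ :=
    IsScalarTower.of_algebraMap_eq (fun x => (IsLocalization.lift_eq _ x).symm)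
  let e1 : κ ⊗[Localization.AtPrime p] (Localization.AtPrime p ⊗[P] M) ≃ₗ[κ] κ ⊗[P] M :=
    AlgebraTensorModule.cancelBaseChange _ _ _ _ _
  let e2 : κ ⊗[Localization.AtPrime p] (LocalizedModule p.primeCompl M) ≃ₗ[κ]
      κ ⊗[Localization.AtPrime p] (Localization.AtPrime p ⊗[P] M) :=
    AlgebraTensorModule.congr (LinearEquiv.refl _ _)
      (LocalizedModule.equivTensorProduct p.primeCompl M)
  have h1 : Module.finrank κ (κ ⊗[P] M) =
      Module.finrank κ (κ ⊗[Localization.AtPrime p] (LocalizedModule p.primeCompl M)) :=
    ((e2.trans e1).finrank_eq).symm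
  rw [h1, Module.finrank_baseChange]
  have hle : p.primeCompl ≤ nonZeroDivisors P := p.primeCompl_le_nonZeroDivisors
  rw [IsLocalization.finrank_eq (Localization.AtPrime p) p.primeCompl hle,
    IsLocalizedModule.finrank_eq p.primeCompl (LocalizedModule.mkLinearMap p.primeCompl M) hle]

/-- The fibre dimension is the same at any two primes with principal localisation. -/
theorem finrank_fiber_eq_fiber (q : Ideal P) [q.IsPrime]
    [IsPrincipalIdealRing (Localization.AtPrime q)] :
    Module.finrank p.ResidueField (p.Fiber M) = Module.finrank q.ResidueField (q.Fiber M) := by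
  rw [finrank_fiber_eq_finrank M p, finrank_fiber_eq_finrank M q]

end Module

section Algebra

variable {P : Type*} [CommRing P] [IsDomain P]
variable (R : Type*) [CommRing R] [IsDomain R] [Algebra P R] [Module.Finite P R] [FaithfulSMul P R]
variable (p : Ideal P) [p.IsPrime] [IsPrincipalIdealRing (Localization.AtPrime p)]

/-- **B3, fraction field form.** `R` a domain, finite over the domain `P`, `P → R` injective,
`P_p` a principal ideal ring: `dim_{κ(p)} (κ(p) ⊗_P R) = [L : K]` for fraction fields `K` of `P`
and `L` of `R`. -/
theorem finrank_fiber_eq_finrank_isFractionRing (K L : Type*) [Field K] [Field L]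
    [Algebra P K] [IsFractionRing P K] [Algebra R L] [IsFractionRing R L]
    [Algebra K L] [Algebra P L] [IsScalarTower P K L] [IsScalarTower P R L] :
    Module.finrank p.ResidueField (p.Fiber R) = Module.finrank K L := by
  rw [finrank_fiber_eq_finrank R p, IsFractionRing.finrank_eq P K R L]

attribute [local instance] FractionRing.liftAlgebra

/-- **B3.** `dim_{κ(p)} (κ(p) ⊗_P R) = [Frac R : Frac P]`. -/
theorem finrank_fiber_eq_finrank_fractionRing :
    Module.finrank p.ResidueField (p.Fiber R) =
      Module.finrank (FractionRing P) (FractionRing R) :=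
  finrank_fiber_eq_finrank_isFractionRing R p (FractionRing P) (FractionRing R)

/-- **B3, quotient form.** `κ` a field containing `P ⧸ p` (e.g. its fraction field):
`dim_κ (κ ⊗_{P/p} R/pR) = [Frac R : Frac P]`. -/
theorem finrank_tensor_quotient_eq (κ : Type*) [Field κ] [Algebra P κ] [Algebra (P ⧸ p) κ]
    [IsScalarTower P (P ⧸ p) κ] (hinj : Function.Injective (algebraMap (P ⧸ p) κ)) :
    Module.finrank κ (κ ⊗[P ⧸ p] (R ⧸ p.map (algebraMap P R))) =
      Module.finrank (FractionRing P) (FractionRing R) := by
  let e0 : (R ⧸ p.map (algebraMap P R)) ≃ₗ[P ⧸ p] (P ⧸ p) ⊗[P] R :=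
    (Algebra.TensorProduct.quotIdealMapEquivQuotTensor R p).toLinearEquiv
  let e1 : κ ⊗[P ⧸ p] (R ⧸ p.map (algebraMap P R)) ≃ₗ[κ] κ ⊗[P ⧸ p] ((P ⧸ p) ⊗[P] R) :=
    AlgebraTensorModule.congr (LinearEquiv.refl _ _) e0
  let e2 : κ ⊗[P ⧸ p] ((P ⧸ p) ⊗[P] R) ≃ₗ[κ] κ ⊗[P] R :=
    AlgebraTensorModule.cancelBaseChange _ _ _ _ _
  have h : ∀ x : P, x ∉ p → algebraMap P κ x ≠ 0 := by
    intro x hx h0
    rw [IsScalarTower.algebraMap_apply P (P ⧸ p) κ] at h0
    have h1 : algebraMap P (P ⧸ p) x = 0 := hinj (by rw [h0, map_zero])
    rw [Ideal.Quotient.algebraMap_eq, Ideal.Quotient.eq_zero_iff_mem] at h1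
    exact hx h1
  rw [(e1.trans e2).finrank_eq, finrank_tensor_eq_finrank R p κ h]
  exact (IsFractionRing.finrank_eq P (FractionRing P) R (FractionRing R)).symm

end Algebra

section Principal

variable {P : Type*} [CommRing P] [IsDomain P] [IsNoetherianRing P]

attribute [local instance] FractionRing.liftAlgebra

/-- In a noetherian domain, the localisation at a principal prime ideal is a principal ideal
ring (a discrete valuation ring if the prime is nonzero, a field otherwise). -/
theorem isPrincipalIdealRing_localization_of_isPrincipal (p : Ideal P) [p.IsPrime]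
    (hp : p.IsPrincipal) : IsPrincipalIdealRing (Localization.AtPrime p) := by
  have h : (IsLocalRing.maximalIdeal (Localization.AtPrime p)).IsPrincipal := by
    rw [← Localization.AtPrime.map_eq_maximalIdeal]
    obtain ⟨π, hπ⟩ := hp
    refine ⟨algebraMap P (Localization.AtPrime p) π, ?_⟩
    have h3 : Ideal.map (algebraMap P (Localization.AtPrime p)) p =
        Ideal.map (algebraMap P (Localization.AtPrime p)) (Ideal.span {π}) :=
      congrArg (Ideal.map (algebraMap P (Localization.AtPrime p))) hπ
    rw [h3, Ideal.map_span, Set.image_singleton]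
  exact ((tfae_of_isNoetherianRing_of_isLocalRing_of_isDomain
    (Localization.AtPrime p)).out 0 4).mpr h

/-- **B3 as stated in the blueprint.** `P` a noetherian domain, `π` a prime element (or `0`),
`R` a domain finite over `P` with `P → R` injective: the fibre of `R` over the prime `(π)` has
dimension `[Frac R : Frac P]` over `κ((π))`. -/
theorem finrank_fiber_span_singleton (R : Type*) [CommRing R] [IsDomain R] [Algebra P R]
    [Module.Finite P R] [FaithfulSMul P R] (π : P) [(Ideal.span {π}).IsPrime] :
    Module.finrank (Ideal.span {π}).ResidueField ((Ideal.span {π}).Fiber R) =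
      Module.finrank (FractionRing P) (FractionRing R) := by
  have := isPrincipalIdealRing_localization_of_isPrincipal (Ideal.span {π}) ⟨π, rfl⟩
  exact finrank_fiber_eq_finrank_fractionRing R (Ideal.span {π})

end Principal

end Fermat.Agent.S26.H793
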